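/-
Row S27, block GRP (helper386): the group law on the affine points of the Jacobian.

From the S25 dictionary (`Dict Ch`) and the algebra of gluing data (tensor product, dual, unit):
for every `k`-algebra `A` the set of `A`-points of the Jacobian is an abelian group, the product
of two points being the point of the tensor product of their gluing data, naturally in `A`.
`affLaw d hrep : H687.AffineLaw k D.toBase`, and `grp_of_dict` : the clause of `Stmt.Grp`.
-/
import Fermat.Agent.S27.H386.PointDict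
import Fermat.Agent.S27.H687.AffineLaw
import Fermat.Agent.S27.H323.Tensor
import Fermat.Agent.S27.H325.TensorDegFam

set_option autoImplicit false

open CategoryTheory CategoryTheory.Limits AlgebraicGeometry AlgebraicGeometry.RelPicard
  NeronModelInfra GoodReductionJacobian
open scoped TensorProduct

universe u

namespace Fermat.Agent.S27.H386

open Fermat.Agent.S25

variable {k : Type u} [Field k] [IsAlgClosed k] {C : Scheme.{u}}
  {c : C ⟶ Spec (CommRingCat.of k)}
  {ε : SchemeHomOver (𝟙 (Spec (CommRingCat.of k))) c} {Ch : ChartOf c ε}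
  {D : RelativePic0Designation k c}
  {hrep : RepresentsRelSubPic c ε (algEquivZeroCut c ε) D}
  {A : Type u} [CommRing A] [Algebra k A]

/-- Two data of the same point are isomorphic. -/
theorem rel_isIso (d : Dict Ch) {g : SchemeHomOver (specStr k A) D.toBase}
    {G G' : CurveGD k Ch.B₀ Ch.B₁ Ch.B₀₁ A} (h : Rel Ch hrep A g G) (h' : Rel Ch hrep A g G') :
    G.IsIso G' :=
  (rel_eq_iff d h h').1 rfl

/-- Two points with isomorphic data are equal. -/
theorem rel_ext (d : Dict Ch) {g g' : SchemeHomOver (specStr k A) D.toBase}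
    {G G' : CurveGD k Ch.B₀ Ch.B₁ Ch.B₀₁ A} (h : Rel Ch hrep A g G) (h' : Rel Ch hrep A g' G')
    (hG : G.IsIso G') : g = g' :=
  (rel_eq_iff d h h').2 hG

/-- The product of two points exists. -/
theorem amul_exists (d : Dict Ch) (g g' : SchemeHomOver (specStr k A) D.toBase) :
    ∃ m : SchemeHomOver (specStr k A) D.toBase, ∀ G G' : CurveGD k Ch.B₀ Ch.B₁ Ch.B₀₁ A,
      Rel Ch hrep A g G → Rel Ch hrep A g' G' →
        Rel Ch hrep A m (S25.H325.tensorGD G G') := by
  obtain ⟨G₀, h₀, hr₀, hd₀⟩ := rel_exists (hrep := hrep) d g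
  obtain ⟨G₀', h₀', hr₀', hd₀'⟩ := rel_exists (hrep := hrep) d g'
  obtain ⟨m, hm⟩ := rel_surj (hrep := hrep) d (S25.H325.tensorGD G₀ G₀')
    (S27.H325.rigidifiable_tensorGD Ch.e hr₀ hr₀')
    (S27.H325.deg0_tensorGD Ch.isCurveChart hd₀ hd₀')
  exact ⟨m, fun G G' h h' => rel_of_isIso hm
    (S25.H325.tensorGD_isIso_congr (rel_isIso d h₀ h) (rel_isIso d h₀' h'))⟩

/-- The inverse of a point exists. -/
theorem ainv_exists (d : Dict Ch) (g : SchemeHomOver (specStr k A) D.toBase) :
    ∃ m : SchemeHomOver (specStr k A) D.toBase, ∀ G : CurveGD k Ch.B₀ Ch.B₁ Ch.B₀₁ A,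
      Rel Ch hrep A g G → Rel Ch hrep A m (S25.H325.dualGD G) := by
  obtain ⟨G₀, h₀, hr₀, hd₀⟩ := rel_exists (hrep := hrep) d g
  obtain ⟨m, hm⟩ := rel_surj (hrep := hrep) d (S25.H325.dualGD G₀)
    (S27.H325.rigidifiable_dualGD Ch.e hr₀) (S27.H325.deg0_dualGD Ch.isCurveChart hd₀)
  exact ⟨m, fun G h => rel_of_isIso hm (S25.H325.dualGD_isIso_congr (rel_isIso d h₀ h))⟩

variable (hrep) (A) in
/-- The product of two `A`-points. -/
noncomputable def amul (d : Dict Ch) (g g' : SchemeHomOver (specStr k A) D.toBase) :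
    SchemeHomOver (specStr k A) D.toBase :=
  (amul_exists (hrep := hrep) d g g').choose

variable (hrep) (A) in
/-- The inverse of an `A`-point. -/
noncomputable def ainv (d : Dict Ch) (g : SchemeHomOver (specStr k A) D.toBase) :
    SchemeHomOver (specStr k A) D.toBase :=
  (ainv_exists (hrep := hrep) d g).choose

theorem rel_amul (d : Dict Ch) {g g' : SchemeHomOver (specStr k A) D.toBase}
    {G G' : CurveGD k Ch.B₀ Ch.B₁ Ch.B₀₁ A} (h : Rel Ch hrep A g G)
    (h' : Rel Ch hrep A g' G') :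
    Rel Ch hrep A (amul hrep A d g g') (S25.H325.tensorGD G G') :=
  (amul_exists (hrep := hrep) d g g').choose_spec G G' h h'

theorem rel_ainv (d : Dict Ch) {g : SchemeHomOver (specStr k A) D.toBase}
    {G : CurveGD k Ch.B₀ Ch.B₁ Ch.B₀₁ A} (h : Rel Ch hrep A g G) :
    Rel Ch hrep A (ainv hrep A d g) (S25.H325.dualGD G) :=
  (ainv_exists (hrep := hrep) d g).choose_spec G h

/-- The product of two points is the point of any tensor product of their data. -/
theorem rel_amul_of_isTensor (d : Dict Ch) {g g' : SchemeHomOver (specStr k A) D.toBase}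
    {G G' G'' : CurveGD k Ch.B₀ Ch.B₁ Ch.B₀₁ A} (h : Rel Ch hrep A g G)
    (h' : Rel Ch hrep A g' G') (hT : IsTensor G G' G'') :
    Rel Ch hrep A (amul hrep A d g g') G'' :=
  rel_of_isIso (rel_amul d h h') (S27.H325.isIso_tensorGD_of_isTensor hT)

theorem amul_assoc (d : Dict Ch) (x y z : SchemeHomOver (specStr k A) D.toBase) :
    amul hrep A d (amul hrep A d x y) z = amul hrep A d x (amul hrep A d y z) := by
  obtain ⟨G₁, h₁, -⟩ := rel_exists (hrep := hrep) d x
  obtain ⟨G₂, h₂, -⟩ := rel_exists (hrep := hrep) d y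
  obtain ⟨G₃, h₃, -⟩ := rel_exists (hrep := hrep) d z
  exact rel_ext d (rel_amul d (rel_amul d h₁ h₂) h₃) (rel_amul d h₁ (rel_amul d h₂ h₃))
    (S27.H323.tensorGD_assoc_isIso_h323 G₁ G₂ G₃)

theorem amul_comm (d : Dict Ch) (x y : SchemeHomOver (specStr k A) D.toBase) :
    amul hrep A d x y = amul hrep A d y x := by
  obtain ⟨G₁, h₁, -⟩ := rel_exists (hrep := hrep) d x
  obtain ⟨G₂, h₂, -⟩ := rel_exists (hrep := hrep) d y
  exact rel_ext d (rel_amul d h₁ h₂) (rel_amul d h₂ h₁) (S25.H325.tensorGD_comm_isIso G₁ G₂)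

theorem aone_amul (d : Dict Ch) (x : SchemeHomOver (specStr k A) D.toBase) :
    amul hrep A d (onePt D A) x = x := by
  obtain ⟨G₁, h₁, -⟩ := rel_exists (hrep := hrep) d x
  exact rel_ext d (rel_amul d (rel_one d) h₁) h₁ (S25.H325.tensorGD_unit_left_isIso G₁)

theorem amul_aone (d : Dict Ch) (x : SchemeHomOver (specStr k A) D.toBase) :
    amul hrep A d x (onePt D A) = x := by
  obtain ⟨G₁, h₁, -⟩ := rel_exists (hrep := hrep) d x
  exact rel_ext d (rel_amul d h₁ (rel_one d)) h₁ (S25.H325.tensorGD_unit_right_isIso G₁)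

theorem ainv_amul (d : Dict Ch) (x : SchemeHomOver (specStr k A) D.toBase) :
    amul hrep A d (ainv hrep A d x) x = onePt D A := by
  obtain ⟨G₁, h₁, -⟩ := rel_exists (hrep := hrep) d x
  exact rel_ext d (rel_amul d (rel_ainv d h₁) h₁) (rel_one d)
    (S25.H325.tensorGD_dual_isIso_unit G₁)

theorem amul_natural (d : Dict Ch) {A' : Type u} [CommRing A'] [Algebra k A'] (φ : A →ₐ[k] A')
    (x y : SchemeHomOver (specStr k A) D.toBase) :
    S27.H687.bc φ (amul hrep A d x y) =
      amul hrep A' d (S27.H687.bc φ x) (S27.H687.bc φ y) := by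
  obtain ⟨G₁, h₁, -⟩ := rel_exists (hrep := hrep) d x
  obtain ⟨G₂, h₂, -⟩ := rel_exists (hrep := hrep) d y
  obtain ⟨G₁', hb₁⟩ := H265.curveGD_exists_isBC φ G₁
  obtain ⟨G₂', hb₂⟩ := H265.curveGD_exists_isBC φ G₂
  have e₁ : Rel Ch hrep A' (S27.H687.bc φ x) G₁' := rel_bc d φ h₁ hb₁
  have e₂ : Rel Ch hrep A' (S27.H687.bc φ y) G₂' := rel_bc d φ h₂ hb₂
  have e₃ : Rel Ch hrep A' (S27.H687.bc φ (amul hrep A d x y)) (S25.H325.tensorGD G₁' G₂') :=
    rel_bc d φ (rel_amul d h₁ h₂) (S25.H325.curveGD_isBC_tensorGD φ hb₁ hb₂)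
  exact rel_ext d e₃ (rel_amul d e₁ e₂) (H265.isIso_refl _)

variable (hrep) in
/-- **The affine group law** on the Jacobian. -/
noncomputable def affLaw (d : Dict Ch) : S27.H687.AffineLaw k D.toBase where
  mul A _ _ := amul hrep A d
  one A _ _ := onePt D A
  inv A _ _ := ainv hrep A d
  mul_assoc _ _ _ := amul_assoc d
  one_mul _ _ _ := aone_amul d
  mul_one _ _ _ := amul_aone d
  inv_mul_cancel _ _ _ := ainv_amul d
  mul_natural _ _ _ _ _ _ φ := amul_natural d φ

/-- **GRP from the dictionary**: the Jacobian carries a commutative group law which on affine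
test schemes is the tensor product of gluing data. -/
theorem grp_of_dict (d : Dict Ch) (hrep : RepresentsRelSubPic c ε (algEquivZeroCut c ε) D) :
    ∃ L : RelativeGroupLaw k D.toBase, L.IsCommutative ∧
      ∀ (A : Type u) [CommRing A] [Algebra k A] (g g' : SchemeHomOver (specStr k A) D.toBase)
        (G G' G'' : CurveGD k Ch.B₀ Ch.B₁ Ch.B₀₁ A),
        Corr Ch A (hrep.poincare.pullbackAlong g).L G →
        Corr Ch A (hrep.poincare.pullbackAlong g').L G' → IsTensor G G' G'' →
        Corr Ch A (hrep.poincare.pullbackAlong (L.mul (specStr k A) g g')).L G'' := by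
  refine ⟨(affLaw hrep d).extend,
    (affLaw hrep d).extend_isCommutative fun A _ _ x y => amul_comm d x y,
    fun A _ _ g g' G G' G'' h h' hT => ?_⟩
  rw [S27.H687.AffineLaw.extend_mul_affine]
  exact rel_amul_of_isTensor d h h' hT

end Fermat.Agent.S27.H386
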