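/-
Row S27, block GRP (helper386): the correspondence `Corr` between line bundles on `C_A` and gluing
data is invariant under isomorphisms of gluing data.
-/
import Fermat.Agent.S25.DefsDict

set_option autoImplicit false

open CategoryTheory CategoryTheory.Limits AlgebraicGeometry AlgebraicGeometry.RelPicard
  NeronModelInfra GoodReductionJacobian
open scoped TensorProduct

universe u

namespace Fermat.Agent.S27.H386

open Fermat.Agent.S25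

variable {k : Type u} [Field k] {C : Scheme.{u}} {c : C ⟶ Spec (CommRingCat.of k)}
  {ε : SchemeHomOver (𝟙 (Spec (CommRingCat.of k))) c} (Ch : ChartOf c ε)
  (A : Type u) [CommRing A] [Algebra k A]

/-- `Corr` is invariant under isomorphisms of gluing data. -/
theorem corr_of_isIso {L : (pullback c (specStr k A)).Modules}
    {G G' : CurveGD k Ch.B₀ Ch.B₁ Ch.B₀₁ A} (h : Corr Ch A L G) (hG : G.IsIso G') :
    Corr Ch A L G' := by
  obtain ⟨e₀, e₁, e₀₁, h₀, h₁, h₀₁, hr₀, hr₁⟩ := h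
  obtain ⟨f⟩ := hG
  refine ⟨e₀.trans f.e₀.toAddEquiv, e₁.trans f.e₁.toAddEquiv, e₀₁.trans f.e₀₁.toAddEquiv,
    ⟨fun a s => ?_, fun b s => ?_⟩, ⟨fun a s => ?_, fun b s => ?_⟩,
    ⟨fun a s => ?_, fun b s => ?_⟩, fun s => ?_, fun s => ?_⟩
  · change f.e₀ (e₀ _) = _ • f.e₀ (e₀ s)
    rw [h₀.1 a s, map_smul]
  · change f.e₀ (e₀ _) = _ • f.e₀ (e₀ s)
    rw [h₀.2 b s, map_smul]
  · change f.e₁ (e₁ _) = _ • f.e₁ (e₁ s)
    rw [h₁.1 a s, map_smul]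
  · change f.e₁ (e₁ _) = _ • f.e₁ (e₁ s)
    rw [h₁.2 b s, map_smul]
  · change f.e₀₁ (e₀₁ _) = _ • f.e₀₁ (e₀₁ s)
    rw [h₀₁.1 a s, map_smul]
  · change f.e₀₁ (e₀₁ _) = _ • f.e₀₁ (e₀₁ s)
    rw [h₀₁.2 b s, map_smul]
  · change f.e₀₁ (e₀₁ _) = G'.r₀ (f.e₀ (e₀ s))
    rw [hr₀ s, f.comm₀]
  · change f.e₀₁ (e₀₁ _) = G'.r₁ (f.e₁ (e₁ s))
    rw [hr₁ s, f.comm₁]

end Fermat.Agent.S27.H386
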