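/-
Row S27, block GRP (helper386): the dictionary between `A`-points of the Jacobian and gluing data.

`Rel Ch hrep A g G` : the gluing datum `G` over `A` is a datum of sections of the pull-back of the
Poincaré bundle along the point `g : Spec A ⟶ J`.  From the S25 dictionary (`Dict Ch`):

* `rel_exists`  : every point has a datum, rigidifiable and of degree zero;
* `rel_surj`    : every rigidifiable datum of degree zero is the datum of a point;
* `rel_eq_iff`  : two points are equal iff their data are isomorphic;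
* `rel_of_isIso`, `rel_bc` (base change), `rel_one` (the zero section ↔ the unit datum).
-/
import Fermat.Agent.S27.H386.CorrIso
import Fermat.Agent.S25.H327.PullbackComp
import Fermat.Agent.S25.H687.DDDefs
import Fermat.Agent.S25.H265.GDCIso
import Fermat.Agent.S25.H265.GDCRig

set_option autoImplicit false

open CategoryTheory CategoryTheory.Limits AlgebraicGeometry AlgebraicGeometry.RelPicard
  NeronModelInfra GoodReductionJacobian
open scoped TensorProduct

universe u

namespace Fermat.Agent.S27.H386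

open Fermat.Agent.S25

variable {k : Type u} [Field k] {C : Scheme.{u}} {c : C ⟶ Spec (CommRingCat.of k)}
  {ε : SchemeHomOver (𝟙 (Spec (CommRingCat.of k))) c} (Ch : ChartOf c ε)

/-- The S25 dictionary, as one hypothesis. -/
structure Dict : Prop where
  sec : Stmt.DictSections Ch
  glue : Stmt.DictGlue Ch
  iso : Stmt.DictIso Ch
  bc : Stmt.DictBC Ch
  deg : Stmt.DictDeg Ch
  unit : H687.DictUnit Ch

variable {Ch}

/-- `Corr` is invariant under isomorphisms of rigidified line bundles. -/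
theorem corr_of_rIso (d : Dict Ch) {A : Type u} [CommRing A] [Algebra k A]
    {M M' : RigidifiedLineBundle c ε (specStr k A)} {G : CurveGD k Ch.B₀ Ch.B₁ Ch.B₀₁ A}
    (h : Corr Ch A M.L G) (hM : RIso M M') : Corr Ch A M'.L G := by
  obtain ⟨G', hG', -⟩ := d.sec A M'
  have h1 : G.IsIso G' := (d.iso A M M' G G' h hG').1 hM
  exact corr_of_isIso Ch A hG' (H265.isIso_symm h1)

variable {D : RelativePic0Designation k c}
  (hrep : RepresentsRelSubPic c ε (algEquivZeroCut c ε) D)

variable (Ch) in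
/-- `G` is a gluing datum of the point `g`. -/
def Rel (A : Type u) [CommRing A] [Algebra k A] (g : SchemeHomOver (specStr k A) D.toBase)
    (G : CurveGD k Ch.B₀ Ch.B₁ Ch.B₀₁ A) : Prop :=
  Corr Ch A (hrep.poincare.pullbackAlong g).L G

variable {hrep} {A : Type u} [CommRing A] [Algebra k A]

theorem faez_pullback (g : SchemeHomOver (specStr k A) D.toBase) :
    FibrewiseAlgEquivZero (hrep.poincare.pullbackAlong g) :=
  (algEquivZeroCut c ε).pullback_mem _ _ g _ hrep.poincare_mem

theorem rel_of_isIso {g : SchemeHomOver (specStr k A) D.toBase}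
    {G G' : CurveGD k Ch.B₀ Ch.B₁ Ch.B₀₁ A} (h : Rel Ch hrep A g G) (hG : G.IsIso G') :
    Rel Ch hrep A g G' :=
  corr_of_isIso Ch A h hG

theorem rel_exists (d : Dict Ch) (g : SchemeHomOver (specStr k A) D.toBase) :
    ∃ G : CurveGD k Ch.B₀ Ch.B₁ Ch.B₀₁ A, Rel Ch hrep A g G ∧ G.Rigidifiable Ch.e ∧ G.Deg0 := by
  obtain ⟨G, hG, hr⟩ := d.sec A (hrep.poincare.pullbackAlong g)
  exact ⟨G, hG, hr, (d.deg A _ G hG).1 (faez_pullback g)⟩

theorem rel_rigidifiable (d : Dict Ch) {g : SchemeHomOver (specStr k A) D.toBase}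
    {G : CurveGD k Ch.B₀ Ch.B₁ Ch.B₀₁ A} (h : Rel Ch hrep A g G) : G.Rigidifiable Ch.e := by
  obtain ⟨G', hG', hr⟩ := d.sec A (hrep.poincare.pullbackAlong g)
  have h1 : G'.IsIso G := (d.iso A _ _ G' G hG' h).1 ⟨Iso.refl _⟩
  exact H265.rigidifiable_of_isIso h1 hr

theorem rel_deg0 (d : Dict Ch) {g : SchemeHomOver (specStr k A) D.toBase}
    {G : CurveGD k Ch.B₀ Ch.B₁ Ch.B₀₁ A} (h : Rel Ch hrep A g G) : G.Deg0 :=
  (d.deg A _ G h).1 (faez_pullback g)

theorem rel_surj (d : Dict Ch) (G : CurveGD k Ch.B₀ Ch.B₁ Ch.B₀₁ A) (hr : G.Rigidifiable Ch.e)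
    (h0 : G.Deg0) : ∃ g : SchemeHomOver (specStr k A) D.toBase, Rel Ch hrep A g G := by
  obtain ⟨M, hM⟩ := d.glue A G hr
  have hF : FibrewiseAlgEquivZero M := (d.deg A M G hM).2 h0
  obtain ⟨e⟩ := hrep.classify_spec (specStr k A) M hF
  exact ⟨hrep.classify (specStr k A) M hF, corr_of_rIso d hM ⟨e.symm⟩⟩

theorem rel_eq_iff (d : Dict Ch) {g g' : SchemeHomOver (specStr k A) D.toBase}
    {G G' : CurveGD k Ch.B₀ Ch.B₁ Ch.B₀₁ A} (h : Rel Ch hrep A g G) (h' : Rel Ch hrep A g' G') :
    g = g' ↔ G.IsIso G' := by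
  constructor
  · rintro rfl
    exact (d.iso A _ _ G G' h h').1 ⟨Iso.refl _⟩
  · intro hG
    exact hrep.ext_of_iso (specStr k A) g g' ((d.iso A _ _ G G' h h').2 hG)

theorem rel_bc (d : Dict Ch) {A' : Type u} [CommRing A'] [Algebra k A'] (φ : A →ₐ[k] A')
    {g : SchemeHomOver (specStr k A) D.toBase} {G : CurveGD k Ch.B₀ Ch.B₁ Ch.B₀₁ A}
    {G' : CurveGD k Ch.B₀ Ch.B₁ Ch.B₀₁ A'} (h : Rel Ch hrep A g G) (hG : CurveGD.IsBC φ G G') :
    Rel Ch hrep A' (postComp g (specHomOver k φ)) G' := by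
  have h1 := d.bc A A' φ (hrep.poincare.pullbackAlong g) G G' h hG
  exact corr_of_rIso d h1
    (H327.rIso_symm (H327.rIso_pullbackAlong_comp hrep.poincare g (specHomOver k φ)))

variable (D) (A) in
/-- The zero point over `A`. -/
noncomputable def onePt : SchemeHomOver (specStr k A) D.toBase :=
  ⟨specStr k A ≫ D.zeroSection, by
    rw [Category.assoc, D.zeroSection_toBase, Category.comp_id]⟩

/-- The pull-back of the Poincaré bundle along the zero point is trivial. -/
theorem rIso_pullback_onePt :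
    RIso (hrep.poincare.pullbackAlong (onePt D A))
      (RigidifiedLineBundle.unit (c := c) (ε := ε) (specStr k A)) := by
  let z₀ : SchemeHomOver (𝟙 (Spec (CommRingCat.of k))) D.toBase :=
    ⟨D.zeroSection, D.zeroSection_toBase⟩
  let τ : SchemeHomOver (specStr k A) (𝟙 (Spec (CommRingCat.of k))) :=
    ⟨specStr k A, Category.comp_id _⟩
  have hg : onePt D A = postComp z₀ τ := Subtype.ext rfl
  rw [hg]
  have h1 := H327.rIso_pullbackAlong_comp hrep.poincare z₀ τ
  obtain ⟨e₂⟩ := RigidifiedLineBundle.pullbackAlong_congr τ hrep.zero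
  have h3 : RIso ((RigidifiedLineBundle.unit (c := c) (ε := ε)
      (𝟙 (Spec (CommRingCat.of k)))).pullbackAlong τ)
      (RigidifiedLineBundle.unit (c := c) (ε := ε) (specStr k A)) :=
    ⟨Scheme.Modules.pullbackUnitIso _⟩
  exact H327.rIso_trans h1 (H327.rIso_trans ⟨e₂⟩ h3)

theorem rel_one (d : Dict Ch) :
    Rel Ch hrep A (onePt D A)
      (GlueDatum.unit A (A ⊗[k] Ch.B₀) (A ⊗[k] Ch.B₁) (A ⊗[k] Ch.B₀₁)) :=
  corr_of_rIso d (d.unit A) (H327.rIso_symm rIso_pullback_onePt)

end Fermat.Agent.S27.H386
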