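/-
Row S27, block GRP (helper386): the S25 dictionary, unconditionally, for a chart of a proper
smooth integral curve over an algebraically closed field (all six clauses are theorems of
row S25 on main; `DictDeg` is re-derived as in `S25/Assembly/Final.lean`).
-/
import Fermat.Agent.S27.H386.PointDict
import Fermat.Agent.S25.H146.SheafSep
import Fermat.Agent.S25.H146.SheafGlue
import Fermat.Agent.S25.H566.DictUnit
import Fermat.Agent.S25.H687.DDFinal
import Fermat.Agent.S25.H265.GDCCurve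
import Fermat.Agent.S25.H265.GDCDeg
import Fermat.Agent.S25.H265.GDCBaseChange
import Fermat.Agent.S25.H550.DegConst
import Fermat.Agent.S25.H986.DictIsoMpr
import Fermat.Agent.S25.H505.DictBC
import Fermat.Agent.S25.H505.DictSections
import Fermat.Agent.S25.H505.DictGlue
import Fermat.Agent.S25.H567.AbelFamily
import Fermat.Agent.S25.H747.AlgAbelTop
import Fermat.Agent.S25.H266.AbLocRig
import Fermat.Agent.S25.H927.AbAlgAA2
import Fermat.Agent.S25.H206.SurjFinal

set_option autoImplicit false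

open CategoryTheory CategoryTheory.Limits AlgebraicGeometry AlgebraicGeometry.RelPicard
  NeronModelInfra GoodReductionJacobian
open scoped TensorProduct

universe u

namespace Fermat.Agent.S27.H386

open Fermat.Agent.S25

/-- **The S25 dictionary**, unconditionally. -/
theorem dict_all (k : Type u) [Field k] [IsAlgClosed k] {C : Scheme.{u}}
    (c : C ⟶ Spec (CommRingCat.of k)) [IsProper c] [SmoothOfRelativeDimension 1 c]
    [IsIntegral C] (ε : SchemeHomOver (𝟙 (Spec (CommRingCat.of k))) c) (Ch : ChartOf c ε) :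
    Dict Ch := by
  have hSheafGlue : Stmt.SheafGlue c ε := H146.sheafGlue k c ε
  have hAA2 : H747.StmtAA2 k Ch.B₀ Ch.B₁ Ch.B₀₁ := H927.stmtAA2
  have hAA6 : H747.StmtAA6 k Ch.B₀ Ch.B₁ Ch.B₀₁ := H206.stmtAA6 k Ch.B₀ Ch.B₁ Ch.B₀₁
  have hGlue : Stmt.DictGlue Ch := H505.dictGlue Ch
  have hSec : Stmt.DictSections Ch := H505.dictSections Ch
  have hUnit : H687.DictUnit Ch := fun A _ _ => H566.dictUnit Ch A
  have hIso : Stmt.DictIso Ch := H986.dictIso Ch
  have hBC : Stmt.DictBC Ch := H505.dictBC Ch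
  have hEx : Stmt.AlgBCExists Ch := H265.algBCExists Ch
  have hId : H687.BCId k Ch.B₀ Ch.B₁ Ch.B₀₁ := fun A _ _ G => H265.curveGD_isBC_id G
  have hComp : H687.BCComp k Ch.B₀ Ch.B₁ Ch.B₀₁ :=
    fun A A' A'' _ _ _ _ _ _ φ ψ G G' G'' h h' => H265.curveGD_isBC_comp h h'
  have hDegIso : H687.DegIso k Ch.B₀ Ch.B₁ Ch.B₀₁ :=
    fun K _ _ G G' h => H265.degree_eq_of_isIso h
  have hDegConst : H687.DegConst k Ch.B₀ Ch.B₁ Ch.B₀₁ := H550.degConst
  have hAA4 : H747.StmtAA4 k Ch.B₀ Ch.B₁ Ch.B₀₁ := fun x y e hC g A _ _ P 𝔭 h𝔭 =>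
    H266.abelDatum_locRig_of_isBC e g A P (fun A' _ _ ψ => hAA2 x y e hC g A A' ψ P) 𝔭 h𝔭
  obtain ⟨𝔉⟩ := H747.algAbel_of_leaves hAA2 hAA4 hAA6 Ch.x Ch.y Ch.e Ch.isCurveChart
  have hAbelAlg : H687.AbelAlg Ch :=
    H567.abelAlg Ch 𝔉 hSheafGlue (H146.sheafSep k c ε) hGlue hIso hBC
      (fun A _ _ => H566.dictUnit Ch A)
  have hDeg : Stmt.DictDeg Ch :=
    H687.dictDeg_final Ch hSec hIso hBC hEx hUnit hId hComp hDegIso hDegConst hAbelAlg
  exact ⟨hSec, hGlue, hIso, hBC, hDeg, hUnit⟩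

end Fermat.Agent.S27.H386
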