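/-
Row S27, block GRP (helper386): **`Stmt.Grp k`**, unconditionally.

The Jacobian of a proper smooth integral pointed curve over an algebraically closed field carries
a commutative relative group law which, on affine test schemes, is the tensor product of gluing
data.  `AffLaw` (the group law on affine points, from the S25 dictionary) + `H687.AffineLaw.extend`
(the formal extension lemma) + `DictAll` (the S25 dictionary).
-/
import Fermat.Agent.S27.H386.AffLaw
import Fermat.Agent.S27.H386.DictAll
import Fermat.Agent.S27.Spec

set_option autoImplicit false

open CategoryTheory CategoryTheory.Limits AlgebraicGeometry AlgebraicGeometry.RelPicard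
  NeronModelInfra GoodReductionJacobian
open scoped TensorProduct

universe u

namespace Fermat.Agent.S27.H386

open Fermat.Agent.S25

/-- **GRP** (exact shape of `Stmt.Grp` in `S27/Spec.lean`). -/
theorem grp (k : Type u) [Field k] : Stmt.Grp k := by
  intro _ C c _ _ _ ε Ch D hrep
  exact grp_of_dict (dict_all k c ε Ch) hrep

end Fermat.Agent.S27.H386
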