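/-
Row S27 by-product (helper386): **the torsion count in ANY characteristic.**

`natCard_torsion (K F) [IsAlgClosed K] [IsCurveOver K F] [Algebra.EssFiniteType K F] (n) (hn : (n : K) ≠ 0) :
    Nat.card (Pic0.torsion K F n) = n ^ (2 * genusFF K F)`

The frozen statement S27 assumes `CharZero K`; none of its leaves uses it.  This file repeats the
top glue of `S27/{Top,TopJac}.lean` without that hypothesis (for `K`, `F` in one universe), for
the rows which count torsion of reductions of modular curves.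
-/
import Fermat.Agent.S25
import Fermat.Agent.S26
import Fermat.Agent.S27.TopJac
import Fermat.Agent.S27.H323.Tensor
import Fermat.Agent.S27.H660.Conn
import Fermat.Agent.S27.H267.Genus
import Fermat.Agent.S27.H443.FFAlg
import Fermat.Agent.S27.H866.Main
import Fermat.Agent.S27.H386.Grp
import Fermat.Agent.S27.H506.PtsDict
import Fermat.Agent.S27.H970.PicCl
import Fermat.Agent.S27.Dim.D1
import Fermat.Agent.S27.H551.TanGlue
import Fermat.Agent.S27.H351.ChartLoc
import Fermat.Agent.S27.H446.PtsDictA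

set_option autoImplicit false
set_option linter.style.haveILetI false

universe u

open CategoryTheory CategoryTheory.Limits AlgebraicGeometry AlgebraicGeometry.RelPicard
  NeronModelInfra GoodReductionJacobian AlgebraicCurve
open scoped TensorProduct

namespace Fermat.Agent.S27.H386

open Fermat.Agent.S25

variable (K F : Type u) [Field K] [Field F] [Algebra K F] [IsAlgClosed K] [IsCurveOver K F]
  [Algebra.EssFiniteType K F]

/-- **MODEL**, in any characteristic: a function field of a curve over an algebraically closed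
field is the function field of a smooth proper integral pointed curve with a two-chart
presentation. -/
theorem nonempty_curveModel : Nonempty (CurveModel K F) := by
  obtain ⟨B₀, B₁, B₀₁, _, _, _, _, _, _, _, _, _, _, x, y, e, j₀, j₁, j₀₁, hchart, h₀, h₁,
    hj₀, -, hj₀₁, hfrac, -⟩ := H443.ffalg_of_isCurveOver K F
  obtain ⟨C, c, hp, hs, hi, ε, Ch, φ₀, φ₁, φ₀₁, hφ₀, hφ₁⟩ :=
    H866.curveScheme K B₀ B₁ B₀₁ x y e hchart
  refine ⟨{ C := C, c := c, isProper := hp, smooth := hs, isIntegral := hi, ε := ε, Ch := Ch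
            j₀ := j₀.comp φ₀.toAlgHom
            j₁ := j₁.comp φ₁.toAlgHom
            j₀₁ := j₀₁.comp φ₀₁.toAlgHom
            j₀₁_algebraMap₀ := fun b => ?_
            j₀₁_algebraMap₁ := fun b => ?_
            isFracMap := ⟨?_, fun f => ?_⟩ }⟩
  · show j₀₁ (φ₀₁ (algebraMap Ch.B₀ Ch.B₀₁ b)) = j₀ (φ₀ b)
    rw [hφ₀, h₀]
  · show j₀₁ (φ₀₁ (algebraMap Ch.B₁ Ch.B₀₁ b)) = j₁ (φ₁ b)
    rw [hφ₁, h₁]
  · exact hj₀₁.comp φ₀₁.injective
  · obtain ⟨a, b, hb, hab⟩ := hfrac f
    refine ⟨φ₀₁.symm (algebraMap B₀ B₀₁ a), φ₀₁.symm (algebraMap B₀ B₀₁ b), ?_, ?_⟩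
    · show j₀₁ (φ₀₁ (φ₀₁.symm (algebraMap B₀ B₀₁ b))) ≠ 0
      rw [AlgEquiv.apply_symm_apply, h₀]
      intro h0
      exact hb (hj₀ (by rw [h0, map_zero]))
    · show f * j₀₁ (φ₀₁ (φ₀₁.symm (algebraMap B₀ B₀₁ b))) =
        j₀₁ (φ₀₁ (φ₀₁.symm (algebraMap B₀ B₀₁ a)))
      rw [AlgEquiv.apply_symm_apply, AlgEquiv.apply_symm_apply, h₀, h₀]
      exact hab

/-- **JAC**, in any characteristic: the Jacobian package of a function field of a curve over an
algebraically closed field. -/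
theorem nonempty_jacPackage : Nonempty (JacPackage K F) := by
  obtain ⟨M⟩ := nonempty_curveModel K F
  obtain ⟨D, ⟨hrep⟩, hsm, hpr, hgc⟩ := Fermat.Agent.S25.result K M.c M.ε
  obtain ⟨L, hcomm, htens⟩ := grp K M.c M.ε M.Ch D hrep
  have hdim := Dim.main_of_tan_d1 K
    (H551.tan_of_chartAt_loc_ptsDictA K (H351.chartAt K) (H351.loc K) (H446.ptsDictA K))
    M.c M.ε M.Ch D hrep hsm hpr hgc
  obtain ⟨cl, hsurj, hiso, hadd⟩ := H970.picCl K F M
  obtain ⟨ha, hb, hc⟩ := H506.ptsDict K M.c M.ε M.Ch D hrep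
  -- the graph of the bijection
  let R : Pic0 K F → SchemeHomOver (specStr K K) D.toBase → Prop := fun x g =>
    ∃ (G : M.GD) (hG0 : G.degree = 0), cl ⟨G, hG0⟩ = x ∧
      Corr M.Ch K (hrep.poincare.pullbackAlong g).L G
  have hR1 : ∀ x, ∃ g, R x g := fun x => by
    obtain ⟨⟨G, hG0⟩, rfl⟩ := hsurj x
    obtain ⟨g, hg⟩ := hb G hG0
    exact ⟨g, G, hG0, rfl, hg⟩
  have hR2 : ∀ x g g', R x g → R x g' → g = g' := by
    rintro x g g' ⟨G, hG0, hx, hg⟩ ⟨G', hG0', hx', hg'⟩
    exact (hc g g' G G' hg hg').mpr ((hiso ⟨G, hG0⟩ ⟨G', hG0'⟩).mp (hx.trans hx'.symm))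
  have hR3 : ∀ g, ∃ x, R x g := fun g => by
    obtain ⟨G, hG0, hg⟩ := ha g
    exact ⟨cl ⟨G, hG0⟩, G, hG0, rfl, hg⟩
  have hR4 : ∀ x x' g, R x g → R x' g → x = x' := by
    rintro x x' g ⟨G, hG0, rfl, hg⟩ ⟨G', hG0', rfl, hg'⟩
    exact (hiso ⟨G, hG0⟩ ⟨G', hG0'⟩).mpr ((hc g g G G' hg hg').mp rfl)
  choose φ hφ using hR1
  have hφbij : Function.Bijective φ := by
    constructor
    · intro x x' h
      exact hR4 x x' (φ x) (hφ x) (h ▸ hφ x')
    · intro g
      obtain ⟨x, hx⟩ := hR3 g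
      exact ⟨x, hR2 x _ _ (hφ x) hx⟩
  have hφadd : ∀ x y, φ (x + y) = L.mul (specStr K K) (φ x) (φ y) := by
    intro x y
    obtain ⟨G, hG0, hx, hg⟩ := hφ x
    obtain ⟨G', hG0', hy, hg'⟩ := hφ y
    obtain ⟨G'', hG''⟩ :=
      H323.tensorExists K (K ⊗[K] M.Ch.B₀) (K ⊗[K] M.Ch.B₁) (K ⊗[K] M.Ch.B₀₁) G G'
    obtain ⟨hG0'', hcl⟩ := hadd ⟨G, hG0⟩ ⟨G', hG0'⟩ G'' hG''
    have hcorr := htens K (φ x) (φ y) G G' G'' hg hg' hG''
    refine hR2 (x + y) _ _ (hφ (x + y)) ⟨G'', hG0'', ?_, hcorr⟩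
    rw [hcl, hx, hy]
  haveI : IsProper D.toBase := hpr
  haveI : GeometricallyConnected D.toBase := hgc
  refine ⟨{ J := D.P, f := D.toBase, law := L, comm := hcomm
            bundle := ⟨hsm, hpr,
              H660.conn K D.toBase ⟨D.zeroSection, D.zeroSection_toBase⟩, ⟨L⟩⟩
            smoothDim := by rw [H267.genus K F M]; exact hdim
            pts := (Equiv.ofBijective φ hφbij).trans specStrPointEquiv.symm
            pts_add := fun x y => ?_ }⟩
  show specStrPointEquiv.symm (φ (x + y)) =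
    L.mul (𝟙 _) (specStrPointEquiv.symm (φ x)) (specStrPointEquiv.symm (φ y))
  rw [hφadd, specStrPointEquiv_symm_mul]

/-- **The torsion count in any characteristic**: the function field of a curve of genus `g` over
an algebraically closed field `K` has exactly `n^{2g}` degree-0 divisor classes killed by `n`,
for every `n` invertible in `K`. -/
theorem natCard_torsion (n : ℕ) (hn : (n : K) ≠ 0) :
    Nat.card (Pic0.torsion K F n) = n ^ (2 * genusFF K F) := by
  obtain ⟨P⟩ := nonempty_jacPackage K F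
  haveI := P.smoothDim
  rw [Nat.card_congr (P.torsionEquiv n)]
  exact Fermat.Agent.S26.result K P.f P.law P.comm P.bundle (genusFF K F) n hn

/-- The torsion of `Pic⁰` is finite, in any characteristic (for `n` invertible in `K`). -/
theorem finite_torsion (n : ℕ) (hn : (n : K) ≠ 0) : Finite (Pic0.torsion K F n) := by
  have h := natCard_torsion K F n hn
  have hpos : 0 < n ^ (2 * genusFF K F) := by
    apply pow_pos
    rcases Nat.eq_zero_or_pos n with h0 | h0
    · exact absurd (by rw [h0, Nat.cast_zero]) hn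
    · exact h0
  exact Nat.finite_of_card_ne_zero (by omega)

end Fermat.Agent.S27.H386
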