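/-
Row S27 by-product (helper386): the bridge from the RR library's standing hypothesis `FF1 K F`
to the Prelude's `IsCurveOver K F` (over a perfect field), so that the torsion count of S27
applies to the function fields of (reductions of) modular curves.

* `essFiniteType_of_ff1` : `FF1 K F → Algebra.EssFiniteType K F`;
* `trdeg_eq_one_of_ff1`  : `FF1 K F → Algebra.trdeg K F = 1`;
* `isCurveOver_of_ff1`   : `FF1 K F → IsCurveOver K F` for `K` perfect.
-/
import Fermat.Agent.Lib.RR.Defs
import Fermat.Agent.S26.H86.Trdeg
import Fermat.Prelude.Def_AlgebraicCurve_IsCurveOver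

set_option autoImplicit false
set_option linter.style.haveILetI false

universe u

open AlgebraicCurve
open scoped IntermediateField.algebraAdjoinAdjoin

namespace Fermat.Agent.S27.H386

open Fermat.Agent.Lib.RR

variable (K F : Type u) [Field K] [Field F] [Algebra K F]

/-- A function field in the sense of the RR library is essentially of finite type. -/
theorem essFiniteType_of_ff1 [h : FF1 K F] : Algebra.EssFiniteType K F := by
  obtain ⟨x, -, hfin⟩ := h.exists_finite
  haveI := hfin
  haveI : Algebra.EssFiniteType K (IntermediateField.adjoin K {x}) :=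
    IntermediateField.essFiniteType_iff.mpr
      (IntermediateField.fg_adjoin_of_finite (Set.finite_singleton x))
  exact Algebra.EssFiniteType.comp K (IntermediateField.adjoin K {x}) F

/-- A function field in the sense of the RR library has transcendence degree one. -/
theorem trdeg_eq_one_of_ff1 [h : FF1 K F] : Algebra.trdeg K F = 1 := by
  obtain ⟨x, hx, hfin⟩ := h.exists_finite
  haveI := hfin
  have hind : AlgebraicIndependent K (fun _ : PUnit.{u+1} => x) :=
    algebraicIndependent_unique_type_iff.mpr hx
  have hr : Set.range (fun _ : PUnit.{u+1} => x) = {x} := Set.range_const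
  have halg : Algebra.IsAlgebraic (Algebra.adjoin K (Set.range fun _ : PUnit.{u+1} => x)) F := by
    rw [hr]
    haveI : Algebra.IsAlgebraic (IntermediateField.adjoin K {x}) F :=
      Algebra.IsAlgebraic.of_finite _ _
    exact (IsFractionRing.comap_isAlgebraic_iff
      (A := Algebra.adjoin K {x}) (K := IntermediateField.adjoin K {x}) (C := F)).mpr
      inferInstance
  have hb : IsTranscendenceBasis K (fun _ : PUnit.{u+1} => x) :=
    hind.isTranscendenceBasis_iff_isAlgebraic.mpr halg
  rw [← hb.cardinalMk_eq_trdeg]
  simp

/-- **`FF1 ⟹ IsCurveOver`** over a perfect field. -/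
theorem isCurveOver_of_ff1 [PerfectField K] [h : FF1 K F] : IsCurveOver K F := by
  haveI := essFiniteType_of_ff1 K F
  refine { toHasPrincipalDivisors := h.hpd, finiteResidue := fun v => ?_,
           kaehler_free_rank_one := ⟨Module.Free.of_divisionRing F _, ?_⟩ }
  · have h1 : Module.finrank K v.ResidueField = 1 := h.deg_eq_one v
    exact Module.finite_of_finrank_pos (by omega)
  · have h1 := Fermat.Agent.S26.H86.finrank_kaehler_eq_trdeg_of_perfectField K F
    rw [trdeg_eq_one_of_ff1 K F] at h1
    exact_mod_cast h1

end Fermat.Agent.S27.H386
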