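/-
Row S27 by-product (helper386): the torsion count in any characteristic, in the language of the
RR library (`FF1 K F`), ready for the function fields of (reductions of) modular curves.
-/
import Fermat.Agent.S27.H386.CharFree
import Fermat.Agent.S27.H386.FF1Bridge

set_option autoImplicit false
set_option linter.style.haveILetI false

universe u

open AlgebraicCurve

namespace Fermat.Agent.S27.H386

open Fermat.Agent.Lib.RR

/-- **The torsion count for `FF1` function fields, in any characteristic**: if `K` is
algebraically closed and `n` is invertible in `K`, then `Pic⁰(F)[n]` has `n^{2g}` elements. -/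
theorem natCard_torsion_of_ff1 (K F : Type u) [Field K] [Field F] [Algebra K F] [IsAlgClosed K]
    [FF1 K F] (n : ℕ) (hn : (n : K) ≠ 0) :
    Nat.card (Pic0.torsion K F n) = n ^ (2 * genusFF K F) := by
  haveI := isCurveOver_of_ff1 K F
  haveI := essFiniteType_of_ff1 K F
  exact natCard_torsion K F n hn

/-- `Pic⁰(F)[n]` is finite, for `FF1` function fields over an algebraically closed field in which
`n` is invertible. -/
theorem finite_torsion_of_ff1 (K F : Type u) [Field K] [Field F] [Algebra K F] [IsAlgClosed K]
    [FF1 K F] (n : ℕ) (hn : (n : K) ≠ 0) : Finite (Pic0.torsion K F n) := by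
  haveI := isCurveOver_of_ff1 K F
  haveI := essFiniteType_of_ff1 K F
  exact finite_torsion K F n hn

end Fermat.Agent.S27.H386
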